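/-
GATE-E / E8.3 LLQ, node (T) "the top above the B3 cone" (helper28): **`S38Min.CaseB38minE p` for
`5 ≤ p` from the closed S43 provider** (`ProviderFlat.FlatGroups.flatGroups`,
`ProviderNew.NewGroups.newGroups`).

The S43 closure proves CASE B in the contradiction forms `SplitMin.CaseB38minFlatF` (level prime to
`p`) and `SplitMinOrd.CaseB38minNewFO` (`p ∣ M`), with the binders `htrans`, `hordbar`, `q ≠ 2`;
helper86's `CaseB38minE p` (general `W`, MINIMAL level) has none of them.  The bridge:

* `q ≠ 2` from `q % p = 1`;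
* `¬ ResMod (M / q)` by contradiction on the conclusion; `hX : ¬ ResMod (M / p)` from minimality;
* the split at `p ∣ M`;
* and TWO supplies, named Props:
  `TransvSupply p`  : `W` semistable, `W[p]` irreducible ⟹ `HasTransvectionModP (W.map _) p`
                      (node IRR2: `GE8/Irr2`; at `p = 5` helper26's `hasTransvectionModP_five`);
  `OrdbarSupply p`  : at a MINIMAL squarefree level `M` with `p ∣ M`, `ρ̄_W` is ordinary at `p`
                      (`W` multiplicative at `p`: Tate; `W` good at `p`: excluded by node LLP).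

`caseB38minE_of_supplies : 5 ≤ p → TransvSupply p → OrdbarSupply p → CaseB38minE p`.
`5 ≤ p` enters ONLY through the binders of `flatF_of_levelStmt` / `newFO_of_levelStmtNew` (there:
`p ≠ 2`, `p ≠ 3` for the B3 cone, and the frame condition `p = 3 → 2 ∣ M` of the `p`-new branch —
audit on the board, post 7540).
-/
import Fermat.Agent.GE8.LLQ.S38Min
import Fermat.Agent.GB.B9.ProviderFlat.FlatGroups
import Fermat.Agent.GB.B9.ProviderNew.NewGroups

set_option autoImplicit false
set_option linter.unusedSectionVars false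
set_option linter.unusedVariables false

noncomputable section

open WeierstrassCurve WeierstrassCurve.Affine WeierstrassCurve.Affine.Point
open scoped WeierstrassCurve.Affine

namespace Fermat.Agent.GE8.LLQ.CaseB.TopE

open Fermat.Agent.GB.Top.S43Frey Fermat.Agent.GB.Top.FreyTwo.Transvection
  Fermat.Agent.GE8.LLQ.S38Min

/-- **supply (S1)**: a transvection in the image of `ρ̄_{W,p}` (node IRR2). -/
def TransvSupply (p : ℕ) [Fact p.Prime] : Prop :=
  ∀ (W : WeierstrassCurve ℤ), W.Δ ≠ 0 → W.IsSemistableModel → W.ModRepIsIrreducible p →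
    HasTransvectionModP (W.map (Int.castRingHom ℚ)) p

/-- **supply (S2)**: at a MINIMAL squarefree level divisible by `p`, `ρ̄_{W,p}` is ordinary at `p`
(`W` multiplicative at `p`: Tate curve; `W` good at `p`: impossible by level lowering AT `p`). -/
def OrdbarSupply (p : ℕ) [Fact p.Prime] : Prop :=
  ∀ (W : WeierstrassCurve ℤ) (_ : W.Δ ≠ 0) (_ : W.IsSemistableModel)
    (hcard₁ : Nat.card (Submodule.torsionBy ℤ
      ((W.map (Int.castRingHom ℚ))⁄(AlgebraicClosure ℚ)).Point p) = p ^ 2)
    (hker : GaloisFactorsThroughFiniteLevel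
      (WeierstrassCurve.Affine.Point.galoisRepModuleEnd (K := AlgebraicClosure ℚ) ℚ
        (W.map (Int.castRingHom ℚ)) p))
    (_ : W.ModRepIsIrreducible p) (M : ℕ) (_ : Squarefree M) (_ : p ∣ M)
    (_ : W.IsResiduallyModularOfLevel p M)
    (_ : ∀ m : ℕ, m ∣ M → m ≠ M → ¬ W.IsResiduallyModularOfLevel p m),
    (GaloisRepAdic.ofResidualGaloisRep
      ((W.map (Int.castRingHom ℚ)).residualGaloisRepOf p hcard₁ hker)).IsOrdinaryAt p

/-- `q ≡ 1 (mod p)`, `p ≥ 3` ⟹ `q ≠ 2`. -/
theorem ne_two_of_mod_eq_one {p q : ℕ} (hp3 : 3 ≤ p) (hq1 : q % p = 1) : q ≠ 2 := by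
  rintro rfl
  rw [Nat.mod_eq_of_lt (by omega)] at hq1
  omega

/-- **`CaseB38minE p` for `5 ≤ p`** from the closed S43 provider and the two supplies. -/
theorem caseB38minE_of_supplies {p : ℕ} [Fact p.Prime] (hp5 : 5 ≤ p) (hS1 : TransvSupply p)
    (hS2 : OrdbarSupply p) : CaseB38minE p := by
  intro W hΔ hss hcard₁ hker hirr M q hq hqp hqM hsf hunr hres hq1 hscal hSg hmin
  have hp : p.Prime := Fact.out
  have hq2 : q ≠ 2 := ne_two_of_mod_eq_one (by omega) hq1
  have htr := hS1 W hΔ hss hirr
  by_contra hno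
  by_cases hpM : p ∣ M
  · have hM0 : 0 < M := Nat.pos_of_ne_zero hsf.ne_zero
    have hX : ¬ W.IsResiduallyModularOfLevel p (M / p) :=
      hmin (M / p) (Nat.div_dvd_of_dvd hpM) (div_prime_ne_self hM0 hp hpM)
    exact Fermat.Agent.GB.B9.ProviderNew.Top.newFO_of_levelStmtNew
      (Fermat.Agent.GB.B9.ProviderNew.LowerQ.levelStmtNew_of_groups
        Fermat.Agent.GB.B9.ProviderNew.NewGroups.newGroups)
      p hp5 W hΔ hss hcard₁ hker hirr htr
      (hS2 W hΔ hss hcard₁ hker hirr M hsf hpM hres hmin)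
      M q hq hq2 hqp hqM hsf hpM hX hunr hres hno hq1 hscal hSg
  · exact Fermat.Agent.GB.B9.ProviderFlat.Top.flatF_of_levelStmt
      (Fermat.Agent.GB.B9.ProviderFlat.LowerQ.levelStmt_of_groups
        Fermat.Agent.GB.B9.ProviderFlat.FlatGroups.flatGroups)
      p hp5 W hΔ hss hcard₁ hker hirr htr
      M q hq hq2 hqp hqM hsf hpM hunr hres hno hq1 hscal hSg

end Fermat.Agent.GE8.LLQ.CaseB.TopE
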