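/-
GATE-E / E8.3 LLQ, node (T) (helper28): **the two supplies of `TopE.caseB38minE_of_supplies`** and
**`CaseB38minE 5` from node LLP alone**.

* `transvSupply_five`      : `TransvSupply 5` = helper26's `hasTransvectionModP_five` (IRR2, P5MINK);
* `ordbarSupply_of_llpGood`: `OrdbarSupply p` from node LLP, good case, in the delivered side form
  `MinLevelSide3.LLPGoodSideStmt p` (`p ≠ 3`): at a MINIMAL squarefree level `M` with `p ∣ M`,
  either `p ∣ Δ_W` — then `W` is multiplicative at `p` and `ρ̄_W` is ordinary at `p` (helper17's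
  `OrdAtW.ordAt_of_semistable`, Tate curve) — or `W` is good at `p` and LLP lowers the level to
  `M / p`, against minimality;
* **`caseB38minE_five : LLPGoodSideStmt 5 → CaseB38minE 5`**;
* `caseB38minE_of_five_le` : the same at every `p ≥ 5` with `TransvSupply p` as a binder.
-/
import Fermat.Agent.GE8.LLQ.CaseB.TopE
import Fermat.Agent.GE8.Top.MinLevelSide3
import Fermat.Agent.GE8.LLP.OrdAtW
import Fermat.Agent.GE8.Irr2.P5.Final

set_option autoImplicit false
set_option linter.unusedSectionVars false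
set_option linter.unusedVariables false

noncomputable section

open WeierstrassCurve WeierstrassCurve.Affine WeierstrassCurve.Affine.Point
open scoped WeierstrassCurve.Affine

namespace Fermat.Agent.GE8.LLQ.CaseB.Five

open Fermat.Agent.GE8.LLQ.S38Min Fermat.Agent.GE8.LLQ.CaseB.TopE
  Fermat.Agent.GE8.Top.MinLevelSide3

/-- **supply (S1) at `p = 5`** (IRR2, helper26 + helper9 + helper16). -/
theorem transvSupply_five [Fact (Nat.Prime 5)] : TransvSupply 5 :=
  fun W hΔ hss hirr => Fermat.Agent.GE8.Irr2.P5.Final.hasTransvectionModP_five W hΔ hss hirr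

/-- **supply (S2) from node LLP (good case, side form)**, `p ≠ 3`. -/
theorem ordbarSupply_of_llpGood {p : ℕ} [hpF : Fact p.Prime] (hp3 : p ≠ 3)
    (hLLP : LLPGoodSideStmt p) : OrdbarSupply p := by
  intro W hΔ hss hcard₁ hker hirr M hsf hpM hres hmin
  have hp : p.Prime := hpF.out
  by_cases hpΔ : (p : ℤ) ∣ W.Δ
  · exact Fermat.Agent.GE8.LLP.OrdAtW.ordAt_of_semistable hΔ hss hpΔ hcard₁ hker
  · exfalso
    have hM0 : 0 < M := Nat.pos_of_ne_zero hsf.ne_zero
    exact hmin (M / p) (Nat.div_dvd_of_dvd hpM) (div_prime_ne_self hM0 hp hpM)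
      (hLLP W hΔ hss hpΔ hirr hsf hpM (fun h3 => absurd h3 hp3) hres)

/-- **`CaseB38minE p` for `5 ≤ p` from node LLP (good case) and a transvection.** -/
theorem caseB38minE_of_five_le {p : ℕ} [Fact p.Prime] (hp5 : 5 ≤ p) (hS1 : TransvSupply p)
    (hLLP : LLPGoodSideStmt p) : CaseB38minE p :=
  caseB38minE_of_supplies hp5 hS1 (ordbarSupply_of_llpGood (by omega) hLLP)

/-- **`CaseB38minE 5` from node LLP (good case) alone.** -/
theorem caseB38minE_five [Fact (Nat.Prime 5)] (hLLP : LLPGoodSideStmt 5) : CaseB38minE 5 :=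
  caseB38minE_of_five_le (le_refl 5) transvSupply_five hLLP

end Fermat.Agent.GE8.LLQ.CaseB.Five
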