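/-
GATE-E / E8.3 LLQ, node (T) at `p = 5` CLOSED, BINDER-FREE (helper17): helper28's
`Five.caseB38minE_five : LLPGoodSideStmt 5 → CaseB38minE 5` with E8.4 plugged
(`OrdFinal.llpSides`, the ORD column closed for every odd `p`).

* `caseB38minE_five`        : `CaseB38minE 5`;
* `minLevelFLStmt_five`     : `GE.Engine.MinLevelFLStmt 5`   (helper61 `MinLevelLeaves` + helper97 `SQ/Final`);
* `minLevelDichStmt_five`   : `GE.Engine.MinLevelDichStmt 5`.

⟹ the E8 half of S59 at `p = 5` has NO hypothesis left.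
-/
import Fermat.Agent.GE8.LLQ.CaseB.Five
import Fermat.Agent.GE8.LLP.OrdFinal
import Fermat.Agent.GE8.SQ.Final
import Fermat.Agent.GE.Engine.MinLevelLeaves

set_option autoImplicit false

namespace Fermat.Agent.GE8.LLQ.CaseB.FiveClosed

open Fermat.Agent.GE8.LLQ.S38Min Fermat.Agent.GE.Engine

/-- **CASE B at a minimal level, `p = 5`, binder-free.** -/
theorem caseB38minE_five [Fact (Nat.Prime 5)] : CaseB38minE 5 :=
  Fermat.Agent.GE8.LLQ.CaseB.Five.caseB38minE_five
    (Fermat.Agent.GE8.LLP.OrdFinal.llpSides (p := 5) (by decide)).1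

/-- **the minimal level at `p = 5`, flat case, binder-free.** -/
theorem minLevelFLStmt_five [Fact (Nat.Prime 5)] : MinLevelFLStmt 5 :=
  Fermat.Agent.GE.Engine.MinLevelLeaves.minLevelFLStmt_of_SQ_caseB (by decide)
    Fermat.Agent.GE8.SQ.Final.sqSideStmt caseB38minE_five

/-- **the minimal level at `p = 5` with the dichotomy at `p`, binder-free.** -/
theorem minLevelDichStmt_five [Fact (Nat.Prime 5)] : MinLevelDichStmt 5 :=
  Fermat.Agent.GE.Engine.MinLevelLeaves.minLevelDichStmt_of_leaves (by decide)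
    Fermat.Agent.GE8.SQ.Final.sqSideStmt caseB38minE_five

end Fermat.Agent.GE8.LLQ.CaseB.FiveClosed
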