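/-
GATE-E / LLQ@3, the FINAL PLUG of CASE B at a minimal level for EVERY ODD prime `p`, in hypothesis
form (helper28): **`CaseB38minE p` from the two Taylor–Wiles level statements of the P3B twin tree**
(`GE8/P3B/GB/B9/ProviderFlat/Top.LevelStmt`, `GE8/P3B/GB/B9/ProviderNew/Top.LevelStmtNew` — what the
twins of `FlatGroups.flatGroups` / `NewGroups.newGroups` + `LowerQ.levelStmt(New)_of_groups` prove)
and a transvection.  Everything else is discharged here, binder-free:

* the split at `p ∣ M`;
* `¬ ResMod (M / q)` by contradiction on the conclusion; `hX : ¬ ResMod (M / p)` from minimality;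
* `hpΔ : (p : ℤ) ∣ W.Δ` in the `p`-new branch: at a MINIMAL level `M` with `p ∣ M`, `W` good at `p`
  is impossible (helper17's `OrdFinal.llpAtW_good`: E8.4, good case, every odd `p`, NO side condition);
* `hordbar` : `ρ̄_{W,p}` ordinary at `p` = helper17's `OrdAtW.ordAt_of_semistable` (Tate curve).

* `caseB38minE_of_levelStmts : p ≠ 2 → LevelStmt → LevelStmtNew → (transvection) → CaseB38minE p`;
* `caseB38minE_three_of_levelStmts : LevelStmt → LevelStmtNew → CaseB38minE 3`
  (transvection := helper21's `PThree.hasTransvectionModP_three`).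
-/
import Fermat.Agent.GE8.P3B.GB.B9.ProviderNew.Top
import Fermat.Agent.GE8.LLP.OrdAtW
import Fermat.Agent.GE8.LLP.OrdFinal
import Fermat.Agent.GE8.Irr2.PThree

set_option autoImplicit false
set_option linter.unusedSectionVars false
set_option linter.unusedVariables false

noncomputable section

open WeierstrassCurve WeierstrassCurve.Affine WeierstrassCurve.Affine.Point
open scoped WeierstrassCurve.Affine

namespace Fermat.Agent.GE8.LLQ.CaseB.OddTop

open Fermat.Agent.GB.Top.S43Frey Fermat.Agent.GB.Top.FreyTwo.Transvection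
  Fermat.Agent.GE8.LLQ.S38Min

/-- **`CaseB38minE p` for every odd prime `p`** from the two level statements of the P3B twin tree
and a transvection in the image of `ρ̄_{W,p}`. -/
theorem caseB38minE_of_levelStmts {p : ℕ} [hpF : Fact p.Prime] (hp2 : p ≠ 2)
    (hF : Fermat.Agent.GE8.P3B.GB.B9.ProviderFlat.Top.LevelStmt)
    (hN : Fermat.Agent.GE8.P3B.GB.B9.ProviderNew.Top.LevelStmtNew)
    (htr : ∀ (W : WeierstrassCurve ℤ), W.Δ ≠ 0 → W.IsSemistableModel → W.ModRepIsIrreducible p →
      HasTransvectionModP (W.map (Int.castRingHom ℚ)) p) :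
    CaseB38minE p := by
  intro W hΔ hss hcard₁ hker hirr M q hq hqp hqM hsf hunr hres hq1 hscal hSg hmin
  have hp : p.Prime := hpF.out
  have hM0 : 0 < M := Nat.pos_of_ne_zero hsf.ne_zero
  by_contra hno
  by_cases hpM : p ∣ M
  · have hX : ¬ W.IsResiduallyModularOfLevel p (M / p) :=
      hmin (M / p) (Nat.div_dvd_of_dvd hpM) (div_prime_ne_self hM0 hp hpM)
    have hpΔ : (p : ℤ) ∣ W.Δ := by
      by_contra hgood
      exact hX (Fermat.Agent.GE8.LLP.OrdFinal.llpAtW_good p hp2 W hΔ hss hcard₁ hker hirr hgood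
        M hsf hpM hres)
    exact Fermat.Agent.GE8.P3B.GB.B9.ProviderNew.Top.newFOΔAt_of_levelStmtNew hN p hp2
      W hΔ hss hpΔ hcard₁ hker hirr (htr W hΔ hss hirr)
      (Fermat.Agent.GE8.LLP.OrdAtW.ordAt_of_semistable hΔ hss hpΔ hcard₁ hker)
      M q hq hqp hqM hsf hpM hX hunr hres hno hq1 hscal hSg
  · exact Fermat.Agent.GE8.P3B.GB.B9.ProviderFlat.Top.flatFAt_of_levelStmt hF p hp2
      W hΔ hss hcard₁ hker hirr (htr W hΔ hss hirr)
      M q hq hqp hqM hsf hpM hunr hres hno hq1 hscal hSg

/-- **`CaseB38minE 3`** from the two level statements of the P3B twin tree. -/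
theorem caseB38minE_three_of_levelStmts [Fact (Nat.Prime 3)]
    (hF : Fermat.Agent.GE8.P3B.GB.B9.ProviderFlat.Top.LevelStmt)
    (hN : Fermat.Agent.GE8.P3B.GB.B9.ProviderNew.Top.LevelStmtNew) : CaseB38minE 3 :=
  caseB38minE_of_levelStmts (by decide) hF hN
    (fun W hΔ hss hirr => Fermat.Agent.GE8.Irr2.PThree.hasTransvectionModP_three W hΔ hss hirr)

end Fermat.Agent.GE8.LLQ.CaseB.OddTop
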