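/-
GATE-E / E8.3 LLQ at `p = 3` CLOSED, BINDER-FREE (helper28): **`CaseB38minE 3`** — and with it the
whole E8 half of S59 at `p = 3`.

`OddTop.caseB38minE_three_of_levelStmts : LevelStmt → LevelStmtNew → CaseB38minE 3` with the two
Taylor–Wiles level statements of the P3B twin tree plugged (RISK-5 fix (B): the B3 cone with
`p ≠ 3` relaxed to `Ok3A Sy 𝔪 p`, helper86 roots + helper6 generator; RISK-3 DESIDE in the `p`-new
branch):

* `levelStmt`     := `P3B…ProviderFlat.LowerQ.levelStmt_of_groups P3B…FlatGroups.flatGroups`;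
* `levelStmtNew`  := `P3B…ProviderNew.LowerQ.levelStmtNew_of_groups P3B…NewGroups.newGroups`;
* **`caseB38minE_odd : p ≠ 2 → (transvection) → CaseB38minE p`**, **`caseB38minE_three`**;
* `minLevelFLStmt_three`, `minLevelDichStmt_three` (helper61 `MinLevelLeaves` + helper97 `SQ/Final`).
-/
import Fermat.Agent.GE8.LLQ.CaseB.OddTop
import Fermat.Agent.GE8.P3B.GB.B9.ProviderFlat.FlatGroups
import Fermat.Agent.GE8.P3B.GB.B9.ProviderNew.NewGroups
import Fermat.Agent.GE8.SQ.Final
import Fermat.Agent.GE.Engine.MinLevelLeaves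

set_option autoImplicit false

open WeierstrassCurve

namespace Fermat.Agent.GE8.LLQ.CaseB.ThreeClosed

open Fermat.Agent.GE8.LLQ.S38Min Fermat.Agent.GE.Engine
  Fermat.Agent.GB.Top.FreyTwo.Transvection

/-- **the Taylor–Wiles levels of the flat branch, every odd `p`** (P3B twin tree). -/
theorem levelStmt : Fermat.Agent.GE8.P3B.GB.B9.ProviderFlat.Top.LevelStmt :=
  Fermat.Agent.GE8.P3B.GB.B9.ProviderFlat.LowerQ.levelStmt_of_groups
    Fermat.Agent.GE8.P3B.GB.B9.ProviderFlat.FlatGroups.flatGroups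

/-- **the Taylor–Wiles levels of the `p`-new branch, every odd `p`** (P3B twin tree). -/
theorem levelStmtNew : Fermat.Agent.GE8.P3B.GB.B9.ProviderNew.Top.LevelStmtNew :=
  Fermat.Agent.GE8.P3B.GB.B9.ProviderNew.LowerQ.levelStmtNew_of_groups
    Fermat.Agent.GE8.P3B.GB.B9.ProviderNew.NewGroups.newGroups

/-- **CASE B at a minimal level, every odd prime `p`**, from a transvection alone. -/
theorem caseB38minE_odd {p : ℕ} [Fact p.Prime] (hp2 : p ≠ 2)
    (htr : ∀ (W : WeierstrassCurve ℤ), W.Δ ≠ 0 → W.IsSemistableModel → W.ModRepIsIrreducible p →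
      HasTransvectionModP (W.map (Int.castRingHom ℚ)) p) : CaseB38minE p :=
  Fermat.Agent.GE8.LLQ.CaseB.OddTop.caseB38minE_of_levelStmts hp2 levelStmt levelStmtNew htr

/-- **CASE B at a minimal level, `p = 3`, binder-free.** -/
theorem caseB38minE_three [Fact (Nat.Prime 3)] : CaseB38minE 3 :=
  Fermat.Agent.GE8.LLQ.CaseB.OddTop.caseB38minE_three_of_levelStmts levelStmt levelStmtNew

/-- **the minimal level at `p = 3`, flat case, binder-free.** -/
theorem minLevelFLStmt_three [Fact (Nat.Prime 3)] : MinLevelFLStmt 3 :=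
  Fermat.Agent.GE.Engine.MinLevelLeaves.minLevelFLStmt_of_SQ_caseB (by decide)
    Fermat.Agent.GE8.SQ.Final.sqSideStmt caseB38minE_three

/-- **the minimal level at `p = 3` with the dichotomy at `p`, binder-free.** -/
theorem minLevelDichStmt_three [Fact (Nat.Prime 3)] : MinLevelDichStmt 3 :=
  Fermat.Agent.GE.Engine.MinLevelLeaves.minLevelDichStmt_of_leaves (by decide)
    Fermat.Agent.GE8.SQ.Final.sqSideStmt caseB38minE_three

end Fermat.Agent.GE8.LLQ.CaseB.ThreeClosed
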