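/-
GATE-E / E8.3 LLQ, node (T), supply (S2) for EVERY odd `p` (helper17): helper28's
`Five.ordbarSupply_of_llpGood` needs `p ≠ 3` only to discharge the frame side condition
`p = 3 → 2 ∣ M` of `MinLevelSide3.LLPGoodSideStmt p`.  With the per-`W` node of E8.4
(`OrdFinal.llpAtW_good`: squarefree levels, NO side condition, every odd `p`) the same proof gives

* `ordbarSupply_odd : p ≠ 2 → TopE.OrdbarSupply p`, in particular `ordbarSupply_three`.
-/
import Fermat.Agent.GE8.LLQ.CaseB.Five
import Fermat.Agent.GE8.LLP.OrdFinal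
import Fermat.Agent.GE8.Irr2.PThree

set_option autoImplicit false
set_option linter.unusedSectionVars false
set_option linter.unusedVariables false

noncomputable section

open WeierstrassCurve WeierstrassCurve.Affine WeierstrassCurve.Affine.Point
open scoped WeierstrassCurve.Affine

namespace Fermat.Agent.GE8.LLQ.CaseB.OrdbarOdd

open Fermat.Agent.GE8.LLQ.S38Min Fermat.Agent.GE8.LLQ.CaseB.TopE
  Fermat.Agent.GE8.LLQ.CaseB.Five

/-- **supply (S2) at every odd `p`**: at a MINIMAL squarefree level `M` with `p ∣ M`, `ρ̄_{W,p}` is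
ordinary at `p` — `W` multiplicative at `p`: Tate curve (`OrdAtW.ordAt_of_semistable`); `W` good at
`p`: node LLP (`OrdFinal.llpAtW_good`) lowers the level, against minimality. -/
theorem ordbarSupply_odd {p : ℕ} [hpF : Fact p.Prime] (hp2 : p ≠ 2) : OrdbarSupply p := by
  intro W hΔ hss hcard₁ hker hirr M hsf hpM hres hmin
  have hp : p.Prime := hpF.out
  by_cases hpΔ : (p : ℤ) ∣ W.Δ
  · exact Fermat.Agent.GE8.LLP.OrdAtW.ordAt_of_semistable hΔ hss hpΔ hcard₁ hker
  · exfalso
    have hM0 : 0 < M := Nat.pos_of_ne_zero hsf.ne_zero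
    exact hmin (M / p) (Nat.div_dvd_of_dvd hpM) (div_prime_ne_self hM0 hp hpM)
      (Fermat.Agent.GE8.LLP.OrdFinal.llpAtW_good p hp2 W hΔ hss hcard₁ hker hirr hpΔ M hsf hpM
        hres)

/-- **supply (S2) at `p = 3`.** -/
theorem ordbarSupply_three [Fact (Nat.Prime 3)] : OrdbarSupply 3 :=
  ordbarSupply_odd (by decide)

/-- **supply (S1) at `p = 3`** (IRR2, `GE8/Irr2/PThree`). -/
theorem transvSupply_three [Fact (Nat.Prime 3)] : TransvSupply 3 :=
  fun W hΔ hss hirr => Fermat.Agent.GE8.Irr2.PThree.hasTransvectionModP_three W hΔ hss hirr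

end Fermat.Agent.GE8.LLQ.CaseB.OrdbarOdd

end
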